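import Fermat.Agent.S18.Disc.Datum

/-!
# PROJECT H (S18), block D-local: evaluation on residue discs

For a reduction datum `R : CoreDefs.RedDatum A π r` and a place `Q` of the special fibre, the
*residue disc* of `Q` is `{P | r P = Q}`.  From `r_* div(u) = div(red u)` alone we get:

* `ord_red_nonneg`, `ord_le_ord_red`, `ord_red_pos` : zero counting on a disc;
* `value_mem'` (E1) : a function of `O` which is regular on the disc takes values in `A` there;
* `red_value` (E2) : the reduction of the value is the value of the reduction;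
* `red_regular` (E2') : the reduction is regular at `Q`;
* `IsGoodParam` (E3) : a good parameter `T` (regular on the disc, `ord_Q (red T) = 1`)
  has exactly one, simple, zero on the disc and its values there lie in `𝔪_A`;
* `value_mem` (T1) : the statement consumed by `Fermat/Agent/S18/Core.lean`.
-/

set_option autoImplicit false
set_option linter.unusedSectionVars false

namespace Fermat.Agent.S18.Disc

open AlgebraicCurve Fermat.Agent.S24.Ord Fermat.Agent.S18.CoreDefs Fermat.Agent.S18.CoreOrd

variable {L : Type*} [Field L] {FL : Type*} [Field FL] [Algebra L FL]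
variable {k : Type*} [Field k] {Fk : Type*} [Field Fk] [Algebra k Fk]
variable {A : ValuationSubring L} {π : A →+* k} {r : Place L FL → Place k Fk}
  (R : RedDatum A π r)

/-- `y` is regular at every place of the residue disc of `Q`. -/
def RegOn (r : Place L FL → Place k Fk) (y : FL) (Q : Place k Fk) : Prop :=
  ∀ P : Place L FL, r P = Q → P.adicValuation y ≤ 1

variable {R} in
theorem RegOn.add {y z : FL} {Q : Place k Fk} (hy : RegOn r y Q) (hz : RegOn r z Q) :
    RegOn r (y + z) Q := fun P hP => Valuation.map_add_le _ (hy P hP) (hz P hP)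

variable {R} in
theorem RegOn.sub {y z : FL} {Q : Place k Fk} (hy : RegOn r y Q) (hz : RegOn r z Q) :
    RegOn r (y - z) Q := fun P hP => Valuation.map_sub_le _ (hy P hP) (hz P hP)

variable {R} in
theorem RegOn.sub_left {y z : FL} {Q : Place k Fk} (hz : RegOn r z Q) (hy : RegOn r y Q) :
    RegOn r (y - z) Q := hy.sub hz

variable {R} in
theorem RegOn.mul {y z : FL} {Q : Place k Fk} (hy : RegOn r y Q) (hz : RegOn r z Q) :
    RegOn r (y * z) Q := fun P hP => by
  rw [map_mul]
  exact mul_le_one' (hy P hP) (hz P hP)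

variable {R} in
theorem RegOn.neg {y : FL} {Q : Place k Fk} (hy : RegOn r y Q) : RegOn r (-y) Q :=
  fun P hP => by rw [Valuation.map_neg]; exact hy P hP

theorem regOn_const (r : Place L FL → Place k Fk) (c : L) (Q : Place k Fk) : RegOn r (algebraMap L FL c) Q :=
  fun P _ => (mem_iff P _).mp (P.algebraMap_mem' c)

theorem regOn_one (r : Place L FL → Place k Fk) (Q : Place k Fk) : RegOn r (1 : FL) Q := fun P _ => by simp

variable {R} in
theorem RegOn.pow {y : FL} {Q : Place k Fk} (hy : RegOn r y Q) (n : ℕ) : RegOn r (y ^ n) Q :=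
  fun P hP => by
    rw [map_pow]
    exact pow_le_one' (hy P hP) n

section ZeroCount

variable [HasPrincipalDivisors L FL]

open Classical in
/-- Zero counting: `ord_Q (red u)` is the sum of the orders of `u` over a finite part of the
residue disc of `Q` containing all its zeros and poles there. -/
theorem exists_ord_red_eq_sum (u : R.O) (hu : R.red u ≠ 0) (Q : Place k Fk) :
    ∃ s : Finset (Place L FL), (∀ P ∈ s, r P = Q) ∧
      (∀ P, r P = Q → P.ord (u : FL) ≠ 0 → P ∈ s) ∧
      Q.ord (R.red u) = ∑ P ∈ s, P.ord (u : FL) := by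
  obtain ⟨D, hD, -⟩ := HasPrincipalDivisors.exists_divisor (K := L) (u : FL)
    (coe_ne_zero_of_red_ne_zero R hu)
  refine ⟨D.support.filter fun P => r P = Q, ?_, ?_, ?_⟩
  · intro P hP
    exact (Finset.mem_filter.mp hP).2
  · intro P hP hne
    rw [Finset.mem_filter, Finsupp.mem_support_iff, hD]
    exact ⟨hne, hP⟩
  · rw [← r_div R u hu D hD Q, mapDomain_apply_eq_sum]
    exact Finset.sum_congr rfl fun P _ => hD P

theorem ord_red_nonneg (u : R.O) (hu : R.red u ≠ 0) (Q : Place k Fk)
    (hreg : RegOn r (u : FL) Q) : 0 ≤ Q.ord (R.red u) := by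
  obtain ⟨s, hs, -, hsum⟩ := exists_ord_red_eq_sum R u hu Q
  rw [hsum]
  refine Finset.sum_nonneg fun P hP => ?_
  exact (ord_nonneg_iff P (coe_ne_zero_of_red_ne_zero R hu)).mpr (hreg P (hs P hP))

theorem ord_le_ord_red (u : R.O) (hu : R.red u ≠ 0) (Q : Place k Fk)
    (hreg : RegOn r (u : FL) Q) (P : Place L FL) (hP : r P = Q) :
    P.ord (u : FL) ≤ Q.ord (R.red u) := by
  have hu0 := coe_ne_zero_of_red_ne_zero R hu
  obtain ⟨s, hs, hs', hsum⟩ := exists_ord_red_eq_sum R u hu Q
  by_cases h0 : P.ord (u : FL) = 0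
  · rw [h0]; exact ord_red_nonneg R u hu Q hreg
  · rw [hsum]
    exact Finset.single_le_sum (f := fun P : Place L FL => P.ord (u : FL))
      (fun P' hP' => (ord_nonneg_iff P' hu0).mpr (hreg P' (hs P' hP'))) (hs' P hP h0)

theorem ord_red_pos (u : R.O) (hu : R.red u ≠ 0) (Q : Place k Fk)
    (hreg : RegOn r (u : FL) Q) (P : Place L FL) (hP : r P = Q)
    (hpos : P.adicValuation (u : FL) < 1) : 0 < Q.ord (R.red u) :=
  lt_of_lt_of_le ((ord_pos_iff P (coe_ne_zero_of_red_ne_zero R hu)).mpr hpos)
    (ord_le_ord_red R u hu Q hreg P hP)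

/-- If `ord_Q (red u) = 1` and `u` is regular on the disc, `u` has exactly one zero on the
disc, and it is simple. -/
theorem exists_unique_zero_of_ord_red_eq_one (u : R.O) (Q : Place k Fk)
    (h1 : Q.ord (R.red u) = 1) (hreg : RegOn r (u : FL) Q) :
    ∃ P : Place L FL, r P = Q ∧ P.ord (u : FL) = 1 ∧
      ∀ P' : Place L FL, r P' = Q → P' ≠ P → P'.ord (u : FL) = 0 := by
  classical
  have hu : R.red u ≠ 0 := by
    intro h0
    rw [h0, Place.ord_zero] at h1
    exact zero_ne_one h1
  have hu0 := coe_ne_zero_of_red_ne_zero R hu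
  obtain ⟨s, hs, hs', hsum⟩ := exists_ord_red_eq_sum R u hu Q
  rw [h1] at hsum
  have hnn : ∀ P ∈ s, 0 ≤ P.ord (u : FL) := fun P hP =>
    (ord_nonneg_iff P hu0).mpr (hreg P (hs P hP))
  -- some term is positive
  obtain ⟨P, hPs, hPpos⟩ : ∃ P ∈ s, 0 < P.ord (u : FL) := by
    by_contra hcon
    push Not at hcon
    have : ∑ P ∈ s, P.ord (u : FL) ≤ 0 := Finset.sum_nonpos hcon
    omega
  have hsplit := Finset.add_sum_erase s (fun P : Place L FL => P.ord (u : FL)) hPs
  have hrest : 0 ≤ ∑ P' ∈ s.erase P, P'.ord (u : FL) :=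
    Finset.sum_nonneg fun P' hP' => hnn P' (Finset.mem_of_mem_erase hP')
  have hP1 : P.ord (u : FL) = 1 := by omega
  have hrest0 : ∑ P' ∈ s.erase P, P'.ord (u : FL) = 0 := by omega
  refine ⟨P, hs P hPs, hP1, fun P' hP' hne => ?_⟩
  by_contra h0
  have hmem : P' ∈ s.erase P := Finset.mem_erase.mpr ⟨hne, hs' P' hP' h0⟩
  have := (Finset.sum_eq_zero_iff_of_nonneg
    (fun P'' hP'' => hnn P'' (Finset.mem_of_mem_erase hP''))).mp hrest0 P' hmem
  exact h0 this

/-- (E2') The reduction of a function regular on the disc is regular at `Q`. -/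
theorem red_regular (y : R.O) (Q : Place k Fk) (hreg : RegOn r (y : FL) Q) :
    Q.adicValuation (R.red y) ≤ 1 := by
  by_cases hy : R.red y = 0
  · rw [hy, map_zero]; exact zero_le_one
  · exact (ord_nonneg_iff Q hy).mp (ord_red_nonneg R y hy Q hreg)

/-- (E1) A function of `Ov`, regular on the residue disc of `Q`, takes its values there in `A`. -/
theorem value_mem' (y : R.O) (Q : Place k Fk) (hreg : RegOn r (y : FL) Q)
    (P : Place L FL) (hP : r P = Q) (c : L)
    (hc : P.adicValuation ((y : FL) - algebraMap L FL c) < 1) : c ∈ A := by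
  by_contra hcA
  have hc0 : c ≠ 0 := fun h => hcA (h ▸ A.zero_mem)
  have hinv : c⁻¹ ∈ A := (A.mem_or_inv_mem c).resolve_left hcA
  -- `c⁻¹` is a non-unit of `A`
  have hnu : (⟨c⁻¹, hinv⟩ : A) ∈ IsLocalRing.maximalIdeal A := by
    rw [IsLocalRing.mem_maximalIdeal, mem_nonunits_iff]
    rintro ⟨⟨u, v, huv, hvu⟩, hu⟩
    apply hcA
    have hu' : (u : L) = c⁻¹ := by
      have := congrArg (fun x : A => (x : L)) hu
      simpa using this
    have h1 : c⁻¹ * (v : L) = 1 := by
      have := congrArg (fun x : A => (x : L)) huv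
      simpa [hu'] using this
    have hv : (v : L) = c := by
      have := eq_inv_of_mul_eq_one_right h1
      rwa [inv_inv] at this
    exact hv ▸ v.2
  have hpi : π ⟨c⁻¹, hinv⟩ = 0 := (pi_eq_zero_iff R _).mpr hnu
  set u : R.O := 1 - constHom R ⟨c⁻¹, hinv⟩ * y with hu
  have hred : R.red u = 1 := by
    rw [hu, map_sub, map_one, map_mul, red_constHom R, hpi, map_zero, zero_mul, sub_zero]
  have hred0 : R.red u ≠ 0 := by rw [hred]; exact one_ne_zero
  have hcoe : (u : FL) = -(algebraMap L FL c⁻¹) * ((y : FL) - algebraMap L FL c) := by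
    have h1 : algebraMap L FL c⁻¹ * algebraMap L FL c = 1 := by
      rw [← map_mul, inv_mul_cancel₀ hc0, map_one]
    have h2 : (u : FL) = 1 - algebraMap L FL c⁻¹ * (y : FL) := by
      rw [hu]; push_cast; simp
    rw [h2]
    linear_combination -h1
  have hval : ∀ P' : Place L FL, P'.adicValuation (u : FL) =
      P'.adicValuation ((y : FL) - algebraMap L FL c) := by
    intro P'
    rw [hcoe, map_mul, Valuation.map_neg, adicValuation_algebraMap P' (inv_ne_zero hc0), one_mul]
  have hregu : RegOn r (u : FL) Q := fun P' hP' => by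
    rw [hval]
    exact ((regOn_const r c Q).sub_left hreg) P' hP'
  have hpos := ord_red_pos R u hred0 Q hregu P hP (by rw [hval]; exact hc)
  rw [hred, Place.ord_one] at hpos
  exact lt_irrefl _ hpos

/-- (E2) The reduction of the value is the value of the reduction. -/
theorem red_value (y : R.O) (Q : Place k Fk) (hreg : RegOn r (y : FL) Q)
    (P : Place L FL) (hP : r P = Q) (c : A)
    (hc : P.adicValuation ((y : FL) - algebraMap L FL (c : L)) < 1) :
    Q.adicValuation (R.red y - algebraMap k Fk (π c)) < 1 := by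
  set u : R.O := y - constHom R c with hu
  have hred : R.red u = R.red y - algebraMap k Fk (π c) := by
    rw [hu, map_sub, red_constHom R]
  rw [← hred]
  by_cases h0 : R.red u = 0
  · rw [h0, map_zero]; exact zero_lt_one
  · have hcoe : (u : FL) = (y : FL) - algebraMap L FL (c : L) := by rw [hu]; push_cast; simp
    have hregu : RegOn r (u : FL) Q := by
      rw [hcoe]; exact hreg.sub (regOn_const r _ Q)
    exact (ord_pos_iff Q h0).mp (ord_red_pos R u h0 Q hregu P hP (by rw [hcoe]; exact hc))

/-- (E3) A *good parameter* on the residue disc of `Q`: regular on the disc, and its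
reduction is a uniformiser at `Q`. -/
structure IsGoodParam (T : R.O) (Q : Place k Fk) : Prop where
  reg : RegOn r (T : FL) Q
  ord_one : Q.ord (R.red T) = 1

variable {R} in
theorem IsGoodParam.red_ne_zero {T : R.O} {Q : Place k Fk} (hT : IsGoodParam R T Q) :
    R.red T ≠ 0 := by
  intro h0
  have := hT.ord_one
  rw [h0, Place.ord_zero] at this
  exact zero_ne_one this

variable {R} in
theorem IsGoodParam.red_sub_const {T : R.O} {δ : A}
    (hδ : δ ∈ IsLocalRing.maximalIdeal A) : R.red (T - constHom R δ) = R.red T := by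
  rw [map_sub, red_constHom R, (pi_eq_zero_iff R δ).mpr hδ, map_zero, sub_zero]

variable {R} in
/-- `T - δ` is again a good parameter for `δ ∈ 𝔪_A`. -/
theorem IsGoodParam.sub_const {T : R.O} {Q : Place k Fk} (hT : IsGoodParam R T Q) {δ : A}
    (hδ : δ ∈ IsLocalRing.maximalIdeal A) : IsGoodParam R (T - constHom R δ) Q where
  reg := by
    have : ((T - constHom R δ : R.O) : FL) = (T : FL) - algebraMap L FL (δ : L) := by
      push_cast; simp
    rw [this]
    exact hT.reg.sub (regOn_const r _ Q)
  ord_one := by rw [IsGoodParam.red_sub_const hδ]; exact hT.ord_one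

variable {R} in
/-- (E3) a good parameter has exactly one zero on the disc, and it is simple. -/
theorem IsGoodParam.exists_unique_zero {T : R.O} {Q : Place k Fk} (hT : IsGoodParam R T Q) :
    ∃ P : Place L FL, r P = Q ∧ P.ord (T : FL) = 1 ∧
      ∀ P' : Place L FL, r P' = Q → P' ≠ P → P'.ord (T : FL) = 0 :=
  exists_unique_zero_of_ord_red_eq_one R T Q hT.ord_one hT.reg

variable {R} in
theorem IsGoodParam.coe_ne_zero {T : R.O} {Q : Place k Fk} (hT : IsGoodParam R T Q) :
    (T : FL) ≠ 0 := coe_ne_zero_of_red_ne_zero R hT.red_ne_zero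

variable {R} in
/-- the orders of a good parameter on its disc, given its zero -/
theorem IsGoodParam.ord_eq_ite {T : R.O} {Q : Place k Fk} (hT : IsGoodParam R T Q)
    {P : Place L FL} (hP : r P = Q) (hz : P.adicValuation (T : FL) < 1)
    (P' : Place L FL) (hP' : r P' = Q) [Decidable (P' = P)] :
    P'.ord (T : FL) = if P' = P then 1 else 0 := by
  obtain ⟨P₁, hP₁, h1, hother⟩ := hT.exists_unique_zero
  have hPP₁ : P = P₁ := by
    by_contra hne
    have h0 := hother P hP hne
    have hpos := (ord_pos_iff P hT.coe_ne_zero).mpr hz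
    omega
  subst hPP₁
  split_ifs with h
  · rw [h]; exact h1
  · exact hother P' hP' h

variable {R} in
/-- (E3) the value of a good parameter at a point of the disc lies in `𝔪_A`. -/
theorem IsGoodParam.value_mem {T : R.O} {Q : Place k Fk} (hT : IsGoodParam R T Q)
    (P : Place L FL) (hP : r P = Q) (c : L)
    (hc : P.adicValuation ((T : FL) - algebraMap L FL c) < 1) :
    ∃ hcA : c ∈ A, (⟨c, hcA⟩ : A) ∈ IsLocalRing.maximalIdeal A := by
  have hcA : c ∈ A := value_mem' R T Q hT.reg P hP c hc
  refine ⟨hcA, ?_⟩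
  rw [← pi_eq_zero_iff R]
  by_contra hne
  have h1 := red_value R T Q hT.reg P hP ⟨c, hcA⟩ hc
  have h2 : Q.adicValuation (R.red T) < 1 :=
    (ord_pos_iff Q hT.red_ne_zero).mp (by rw [hT.ord_one]; exact one_pos)
  have h3 : Q.adicValuation (R.red T - (R.red T - algebraMap k Fk (π ⟨c, hcA⟩))) < 1 :=
    Valuation.map_sub_lt _ h2 h1
  rw [sub_sub_cancel, adicValuation_algebraMap Q hne] at h3
  exact lt_irrefl _ h3

theorem regOn_of_ord_nonneg {y : FL} {Q : Place k Fk}
    (hreg : ∀ P : Place L FL, r P = Q → 0 ≤ P.ord y) : RegOn r y Q := fun P hP => by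
  rcases eq_or_ne y 0 with rfl | hy
  · rw [map_zero]; exact zero_le_one
  · exact (ord_nonneg_iff P hy).mp (hreg P hP)

theorem RegOn.ord_nonneg {y : FL} {Q : Place k Fk} (hreg : RegOn r y Q)
    (P : Place L FL) (hP : r P = Q) : 0 ≤ P.ord y := by
  rcases eq_or_ne y 0 with rfl | hy
  · rw [Place.ord_zero]
  · exact (ord_nonneg_iff P hy).mpr (hreg P hP)

theorem adicValuation_lt_one_of_ord_pos {K F : Type*} [Field K] [Field F] [Algebra K F]
    (P : Place K F) {y : F} (h : 0 < P.ord y) : P.adicValuation y < 1 := by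
  have hy : y ≠ 0 := by
    rintro rfl
    rw [Place.ord_zero] at h
    exact lt_irrefl _ h
  exact (ord_pos_iff P hy).mp h

end ZeroCount

section T1

variable [HasPrincipalDivisors L FL] [HasPrincipalDivisors k Fk]

/-- **(T1)** the evaluation lemma in the form consumed by `Fermat/Agent/S18/Core.lean`:
a Gauss-integral function which is regular on the residue disc of `Q` takes its values there
in `A`, and the reduction of the value is the value of the reduction. -/
theorem value_mem (_hpi : Function.Surjective π) (R : RedDatum A π r) (y : R.O) (Q : Place k Fk)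
    (hreg : ∀ P : Place L FL, r P = Q → 0 ≤ P.ord (y : FL)) (P : Place L FL) (hP : r P = Q)
    (c : L) (hc : 0 < P.ord ((y : FL) - algebraMap L FL c)) :
    ∃ hcA : c ∈ A, R.red y - algebraMap k Fk (π ⟨c, hcA⟩) = 0 ∨
      0 < Q.ord (R.red y - algebraMap k Fk (π ⟨c, hcA⟩)) := by
  have hreg' : RegOn r (y : FL) Q := regOn_of_ord_nonneg hreg
  have hc' := adicValuation_lt_one_of_ord_pos P hc
  have hcA : c ∈ A := value_mem' R y Q hreg' P hP c hc'
  refine ⟨hcA, ?_⟩
  by_cases h0 : R.red y - algebraMap k Fk (π ⟨c, hcA⟩) = 0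
  · exact Or.inl h0
  · exact Or.inr ((ord_pos_iff Q h0).mpr (red_value R y Q hreg' P hP ⟨c, hcA⟩ hc'))

end T1

end Fermat.Agent.S18.Disc
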