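import Fermat.Agent.S18.Disc.Eval

/-!
# PROJECT H (S18), block D-local: the local form on a residue disc

`local_form` (T2): let `T` be a good parameter on the residue disc of `Q`, with zero `P0`, let
`f` be a Gauss unit with `red f = 1` whose divisor on the disc is `p (P1 - P0)` (`p` prime to the
residue characteristic) and let `f - 1 = c0 * w` with `w` a Gauss unit.  Then `red w` has at most
a simple pole at `Q`.

Proof: with `δ = T(P1) ∈ 𝔪_A`, `s = δ / T` and `ε = f (T / (T - δ))^p` (a Gauss unit, regular and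
non-vanishing on the disc, with `red ε = 1`) we have `f = (1 - s)^p ε`, hence
`f - 1 = (-p s + s² G) ε + (ε - 1)`.  If `δ / c0 ∉ A`, dividing by `δ` shows that
`(ε - 1) / δ` is Gauss-integral, regular on the disc, with reduction `p / red T`, which has a pole
at `Q`: impossible.  So `κ = δ / c0 ∈ A`, and `(ε - 1) / c0` is Gauss-integral, regular on the
disc, with reduction `red w + p π(κ) / red T`, which is therefore regular at `Q`.
-/

set_option autoImplicit false
set_option linter.unusedSectionVars false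

namespace Fermat.Agent.S18.Disc

open AlgebraicCurve Fermat.Agent.S24.Ord Fermat.Agent.S18.CoreDefs Fermat.Agent.S18.CoreOrd

/-- `(1 - s)^p - 1 + p s` is divisible by `s²`. -/
theorem exists_binom_rem {S : Type*} [CommRing S] (s : S) (p : ℕ) :
    ∃ G : S, (1 - s) ^ p - 1 + p * s = s ^ 2 * G := by
  induction p with
  | zero => exact ⟨0, by simp⟩
  | succ p ih =>
    obtain ⟨G, hG⟩ := ih
    refine ⟨(1 - s) * G + p, ?_⟩
    push_cast
    linear_combination (1 - s) * hG

variable {L : Type*} [Field L] {FL : Type*} [Field FL] [Algebra L FL]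
variable {k : Type*} [Field k] {Fk : Type*} [Field Fk] [Algebra k Fk]
variable {A : ValuationSubring L} {π : A →+* k} {r : Place L FL → Place k Fk}

section Aux

variable [HasPrincipalDivisors L FL] (R : RedDatum A π r)

/-- the value of a good parameter at a point of its disc -/
theorem IsGoodParam.exists_value {T : R.O} {Q : Place k Fk} (hT : IsGoodParam R T Q)
    (P : Place L FL) (hdeg : P.deg = 1) (hP : r P = Q) :
    ∃ δ : A, δ ∈ IsLocalRing.maximalIdeal A ∧
      P.adicValuation ((T : FL) - algebraMap L FL (δ : L)) < 1 := by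
  obtain ⟨c, hc | hc⟩ := CoreOrd.exists_value P hdeg (hT.reg.ord_nonneg P hP)
  · -- `T` constant: impossible
    exfalso
    have hcA : c ∈ A := R.mem_of_algebraMap_mem c (hc ▸ T.2)
    have hTc : T = constHom R ⟨c, hcA⟩ := Subtype.ext hc
    have h1 := hT.ord_one
    rw [hTc, red_constHom, ord_algebraMap] at h1
    exact zero_ne_one h1
  · have hc' := adicValuation_lt_one_of_ord_pos P hc
    obtain ⟨hcA, hm⟩ := hT.value_mem P hP c hc'
    exact ⟨⟨c, hcA⟩, hm, hc'⟩

end Aux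

section Core

variable [HasPrincipalDivisors L FL] (R : RedDatum A π r)

theorem coe_units_inv (u : R.Oˣ) : (((u⁻¹ : R.Oˣ) : R.O) : FL) = (((u : R.O) : FL))⁻¹ := by
  have h : ((u : R.O) : FL) * (((u⁻¹ : R.Oˣ) : R.O) : FL) = 1 := by
    rw [← MulMemClass.coe_mul, Units.mul_inv, OneMemClass.coe_one]
  exact eq_inv_of_mul_eq_one_right h

theorem natCast_red_ne_zero {p : ℕ} (hpk : (p : k) ≠ 0) : (p : Fk) ≠ 0 := by
  have : (p : Fk) = algebraMap k Fk (p : k) := (map_natCast (algebraMap k Fk) p).symm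
  rw [this]
  exact (map_ne_zero_iff _ (algebraMap k Fk).injective).mpr hpk

theorem adicValuation_natCast {p : ℕ} (hpk : (p : k) ≠ 0) (Q : Place k Fk) :
    Q.adicValuation (p : Fk) = 1 := by
  have : (p : Fk) = algebraMap k Fk (p : k) := (map_natCast (algebraMap k Fk) p).symm
  rw [this]
  exact adicValuation_algebraMap Q hpk

/-- The local form with the centre `δ = T(P1)` made explicit. -/
theorem local_core (p : ℕ) (hpk : (p : k) ≠ 0)
    (Q : Place k Fk) (T : R.O) (hT : IsGoodParam R T Q)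
    (δ : A) (hδ : δ ∈ IsLocalRing.maximalIdeal A)
    (P0 P1 : Place L FL) (hP0 : r P0 = Q) (hP1 : r P1 = Q)
    (hT0 : P0.adicValuation (T : FL) < 1)
    (hT1 : P1.adicValuation ((T : FL) - algebraMap L FL (δ : L)) < 1)
    (f : R.Oˣ) (hf1 : R.red f = 1)
    (hford : ∀ P : Place L FL, r P = Q → ∀ [Decidable (P = P1)] [Decidable (P = P0)],
      P.ord ((f : R.O) : FL) = (if P = P1 then (p : ℤ) else 0) - (if P = P0 then (p : ℤ) else 0))
    (c0 : L) (hc0 : c0 ≠ 0) (w : R.O)
    (hw : ((f : R.O) : FL) - 1 = algebraMap L FL c0 * (w : FL)) :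
    ∃ κ : A, (κ : L) = c0⁻¹ * (δ : L) ∧
      Q.adicValuation (R.red w + (p : Fk) * algebraMap k Fk (π κ) * (R.red T)⁻¹) ≤ 1 := by
  classical
  have hTδ : IsGoodParam R (T - constHom R δ) Q := hT.sub_const hδ
  have hTu : IsUnit T := (red_ne_zero_iff_isUnit R T).mp hT.red_ne_zero
  have hDu : IsUnit (T - constHom R δ) := (red_ne_zero_iff_isUnit R _).mp hTδ.red_ne_zero
  obtain ⟨Tu, rfl⟩ := hTu
  obtain ⟨Du, hDu⟩ := hDu
  have hredD : R.red (Du : R.O) = R.red (Tu : R.O) := by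
    rw [hDu]; exact IsGoodParam.red_sub_const hδ
  have hredT0 : R.red (Tu : R.O) ≠ 0 := hT.red_ne_zero
  -- the elements `s`, `ε`
  obtain ⟨s, hs⟩ : ∃ s : R.O, s = constHom R δ * ((Tu⁻¹ : R.Oˣ) : R.O) := ⟨_, rfl⟩
  obtain ⟨εu, hε⟩ : ∃ εu : R.Oˣ, εu = f * (Tu * Du⁻¹) ^ p := ⟨_, rfl⟩
  have hreds : R.red s = 0 := by
    rw [hs, map_mul, red_constHom, (pi_eq_zero_iff R δ).mpr hδ, map_zero, zero_mul]
  have hredε : R.red (εu : R.O) = 1 := by
    rw [hε, Units.val_mul, Units.val_pow_eq_pow_val, Units.val_mul, map_mul, map_pow, map_mul,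
      hf1, map_units_inv, hredD, mul_inv_cancel₀ hredT0, one_pow, one_mul]
  have h1s : 1 - s = (Du : R.O) * ((Tu⁻¹ : R.Oˣ) : R.O) := by
    rw [hs, hDu, sub_mul, Tu.mul_inv]
  have hfε : (f : R.O) = (1 - s) ^ p * (εu : R.O) := by
    have hU : (Du * Tu⁻¹ * (Tu * Du⁻¹) : R.Oˣ) = 1 := by group
    have hU' : ((Du : R.O) * ((Tu⁻¹ : R.Oˣ) : R.O)) * ((Tu : R.O) * ((Du⁻¹ : R.Oˣ) : R.O)) = 1 := by
      rw [← Units.val_mul, ← Units.val_mul, ← Units.val_mul, hU, Units.val_one]
    rw [h1s, hε, Units.val_mul, Units.val_pow_eq_pow_val, Units.val_mul,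
      mul_left_comm, ← mul_pow, hU', one_pow, mul_one]
  obtain ⟨G, hG⟩ := exists_binom_rem s p
  have hcoreO : (f : R.O) - 1 = (-(p : R.O) * s + s ^ 2 * G) * (εu : R.O) + ((εu : R.O) - 1) := by
    linear_combination hfε + (εu : R.O) * hG
  -- `ε` has neither zeros nor poles on the disc
  have hT1' : P1.adicValuation (((Tu : R.O) - constHom R δ : R.O) : FL) < 1 := hT1
  have hf0 : ((f : R.O) : FL) ≠ 0 := coe_unit_ne_zero R f
  have hTu0 : ((Tu : R.O) : FL) ≠ 0 := coe_unit_ne_zero R Tu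
  have hDu0 : ((Du : R.O) : FL) ≠ 0 := coe_unit_ne_zero R Du
  have hεcoe : ((εu : R.O) : FL) =
      ((f : R.O) : FL) * (((Tu : R.O) : FL) * (((Du : R.O) : FL))⁻¹) ^ p := by
    rw [hε, Units.val_mul, Units.val_pow_eq_pow_val, Units.val_mul, MulMemClass.coe_mul,
      SubmonoidClass.coe_pow, MulMemClass.coe_mul, coe_units_inv]
  have hεord : ∀ P' : Place L FL, r P' = Q → P'.ord ((εu : R.O) : FL) = 0 := by
    intro P' hP'
    have h1 := hT.ord_eq_ite hP0 hT0 P' hP'
    have h2 := hTδ.ord_eq_ite hP1 hT1' P' hP'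
    have h3 := hford P' hP'
    rw [← hDu] at h2
    rw [hεcoe, Place.ord_mul _ hf0 (pow_ne_zero _ (mul_ne_zero hTu0 (inv_ne_zero hDu0))),
      CoreOrd.ord_pow, Place.ord_mul _ hTu0 (inv_ne_zero hDu0), Place.ord_inv, h3, h1, h2]
    split_ifs <;> ring
  have hεreg : RegOn r ((εu : R.O) : FL) Q :=
    regOn_of_ord_nonneg fun P' hP' => (hεord P' hP').ge
  have hε1reg : RegOn r (((εu : R.O) : FL) - 1) Q := hεreg.sub (regOn_one r Q)
  -- the identity in `FL`
  have hcore : ((f : R.O) : FL) - 1 =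
      (-(p : FL) * (s : FL) + (s : FL) ^ 2 * (G : FL)) * ((εu : R.O) : FL)
        + (((εu : R.O) : FL) - 1) := by
    have := congrArg (fun x : R.O => (x : FL)) hcoreO
    simpa using this
  have hscoe : (s : FL) = algebraMap L FL (δ : L) * (((Tu⁻¹ : R.Oˣ) : R.O) : FL) := by
    rw [hs]; rfl
  obtain ⟨Ti, hTi⟩ : ∃ Ti : R.O, Ti = ((Tu⁻¹ : R.Oˣ) : R.O) := ⟨_, rfl⟩
  rw [← hTi] at hs hscoe
  have hredTi : R.red Ti = (R.red (Tu : R.O))⁻¹ := by rw [hTi, map_units_inv]
  by_cases hκ : c0⁻¹ * (δ : L) ∈ A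
  · -- Case 1: `κ = δ / c0 ∈ A`
    obtain ⟨κ, hκdef⟩ : ∃ κ : A, κ = ⟨_, hκ⟩ := ⟨_, rfl⟩
    have hκL : (κ : L) = c0⁻¹ * (δ : L) := by rw [hκdef]
    refine ⟨κ, hκL, ?_⟩
    obtain ⟨e', he'⟩ : ∃ e' : R.O, e' = w - (-(p : R.O) * constHom R κ * Ti
        + constHom R κ * Ti * s * G) * (εu : R.O) := ⟨_, rfl⟩
    have hs' : (s : FL) = algebraMap L FL c0 * algebraMap L FL (κ : L) * (Ti : FL) := by
      rw [hscoe, ← map_mul, hκL, mul_inv_cancel_left₀ hc0]
    have he'coe : (e' : FL) = (w : FL) - (-(p : FL) * algebraMap L FL (κ : L) * (Ti : FL)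
        + algebraMap L FL (κ : L) * (Ti : FL) * (s : FL) * (G : FL)) * ((εu : R.O) : FL) := by
      rw [he']; simp
    have hmul : algebraMap L FL c0 * (e' : FL) = ((εu : R.O) : FL) - 1 := by
      rw [he'coe]
      linear_combination hcore - hw + (-(p : FL) + (s : FL) * (G : FL)) * ((εu : R.O) : FL) * hs'
    have he'eq : (e' : FL) = algebraMap L FL c0⁻¹ * (((εu : R.O) : FL) - 1) := by
      rw [← hmul, ← mul_assoc, ← map_mul, inv_mul_cancel₀ hc0, map_one, one_mul]
    have he'reg : RegOn r (e' : FL) Q := by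
      rw [he'eq]; exact (regOn_const r _ Q).mul hε1reg
    have hval := red_regular R e' Q he'reg
    have hrede' : R.red e' =
        R.red w + (p : Fk) * algebraMap k Fk (π κ) * (R.red (Tu : R.O))⁻¹ := by
      rw [he']
      simp only [map_sub, map_mul, map_add, map_neg, map_natCast, red_constHom, hreds, hredε,
        hredTi]
      ring
    rwa [hrede'] at hval
  · -- Case 2: `δ / c0 ∉ A` is impossible
    exfalso
    obtain ⟨hμA, hμm⟩ := inv_mem_maximalIdeal_of_not_mem hκ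
    obtain ⟨μ, hμdef⟩ : ∃ μ : A, μ = ⟨_, hμA⟩ := ⟨_, rfl⟩
    have hμL : (μ : L) = (c0⁻¹ * (δ : L))⁻¹ := by rw [hμdef]
    rw [← hμdef] at hμm
    have hδ0 : (δ : L) ≠ 0 := by
      intro h0; apply hκ; rw [h0, mul_zero]; exact zero_mem _
    obtain ⟨e', he'⟩ : ∃ e' : R.O, e' = constHom R μ * w - (-(p : R.O) * Ti
        + Ti * s * G) * (εu : R.O) := ⟨_, rfl⟩
    have ha0 : algebraMap L FL c0 = algebraMap L FL (δ : L) * algebraMap L FL (μ : L) := by
      rw [← map_mul, hμL]; congr 1; field_simp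
    have he'coe : (e' : FL) = algebraMap L FL (μ : L) * (w : FL) - (-(p : FL) * (Ti : FL)
        + (Ti : FL) * (s : FL) * (G : FL)) * ((εu : R.O) : FL) := by
      rw [he']; simp
    have hmul : algebraMap L FL (δ : L) * (e' : FL) = ((εu : R.O) : FL) - 1 := by
      rw [he'coe]
      linear_combination hcore - hw - (w : FL) * ha0
        + (-(p : FL) + (s : FL) * (G : FL)) * ((εu : R.O) : FL) * hscoe
    have he'eq : (e' : FL) = algebraMap L FL (δ : L)⁻¹ * (((εu : R.O) : FL) - 1) := by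
      rw [← hmul, ← mul_assoc, ← map_mul, inv_mul_cancel₀ hδ0, map_one, one_mul]
    have he'reg : RegOn r (e' : FL) Q := by
      rw [he'eq]; exact (regOn_const r _ Q).mul hε1reg
    have hval := red_regular R e' Q he'reg
    have hrede' : R.red e' = (p : Fk) * (R.red (Tu : R.O))⁻¹ := by
      rw [he']
      simp only [map_sub, map_mul, map_add, map_neg, map_natCast, red_constHom, hreds, hredε,
        hredTi, (pi_eq_zero_iff R μ).mpr hμm]
      simp
    rw [hrede', map_mul, adicValuation_natCast hpk, one_mul, map_inv₀] at hval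
    have hlt : Q.adicValuation (R.red (Tu : R.O)) < 1 :=
      (ord_pos_iff Q hredT0).mp (by rw [hT.ord_one]; exact one_pos)
    have hne : Q.adicValuation (R.red (Tu : R.O)) ≠ 0 :=
      (Valuation.ne_zero_iff _).mpr hredT0
    exact absurd ((one_lt_inv₀ (zero_lt_iff.mpr hne)).mpr hlt) (not_lt.mpr hval)

end Core

section T2

/-- **(T2)** the local form, in the shape consumed by `Fermat/Agent/S18/Core.lean`
(`Fermat.Agent.S18.Core.LocalForm`). -/
theorem local_form [HasPrincipalDivisors L FL] [HasPrincipalDivisors k Fk]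
    (hdegL : ∀ P : Place L FL, P.deg = 1) (_hpi : Function.Surjective π) (R : RedDatum A π r)
    (p : ℕ) (hpk : (p : k) ≠ 0) (Q : Place k Fk) (T : R.O) (hTQ : Q.ord (R.red T) = 1)
    (hTreg : ∀ P : Place L FL, r P = Q → 0 ≤ P.ord (T : FL)) (P0 P1 : Place L FL)
    (hP0 : r P0 = Q) (hP1 : r P1 = Q) (hT0 : 0 < P0.ord (T : FL)) (f : R.Oˣ)
    (hf1 : R.red (f : R.O) = 1)
    (hford : ∀ P : Place L FL, r P = Q → P.ord ((f : R.O) : FL) =
      (Finsupp.single P1 (p : ℤ) - Finsupp.single P0 (p : ℤ) : Place L FL →₀ ℤ) P)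
    (c0 : L) (hc0 : c0 ≠ 0) (w : R.Oˣ)
    (hw : ((f : R.O) : FL) - 1 = algebraMap L FL c0 * ((w : R.O) : FL)) :
    -1 ≤ Q.ord (R.red (w : R.O)) := by
  classical
  have hT : IsGoodParam R T Q := ⟨regOn_of_ord_nonneg hTreg, hTQ⟩
  obtain ⟨δ, hδ, hδ1⟩ := hT.exists_value R P1 (hdegL P1) hP1
  have hT0' : P0.adicValuation (T : FL) < 1 := adicValuation_lt_one_of_ord_pos P0 hT0
  have hford' : ∀ P : Place L FL, r P = Q → ∀ [Decidable (P = P1)] [Decidable (P = P0)],
      P.ord ((f : R.O) : FL) =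
        (if P = P1 then (p : ℤ) else 0) - (if P = P0 then (p : ℤ) else 0) := by
    intro P hP _ _
    rw [hford P hP, Finsupp.sub_apply, Finsupp.single_apply, Finsupp.single_apply]
    have e1 : (if P1 = P then (p : ℤ) else 0) = if P = P1 then (p : ℤ) else 0 := by
      by_cases h1 : P = P1
      · rw [if_pos h1, if_pos h1.symm]
      · rw [if_neg h1, if_neg (Ne.symm h1)]
    have e0 : (if P0 = P then (p : ℤ) else 0) = if P = P0 then (p : ℤ) else 0 := by
      by_cases h0 : P = P0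
      · rw [if_pos h0, if_pos h0.symm]
      · rw [if_neg h0, if_neg (Ne.symm h0)]
    rw [e1, e0]
  obtain ⟨κ, -, hval⟩ := local_core R p hpk Q T hT δ hδ P0 P1 hP0 hP1 hT0' hδ1 f hf1 hford'
    c0 hc0 (w : R.O) hw
  obtain ⟨X, hX⟩ : ∃ X : Fk, X = R.red (w : R.O)
      + (p : Fk) * algebraMap k Fk (π κ) * (R.red T)⁻¹ := ⟨_, rfl⟩
  obtain ⟨Y, hY⟩ : ∃ Y : Fk, Y = (p : Fk) * algebraMap k Fk (π κ) * (R.red T)⁻¹ := ⟨_, rfl⟩
  rw [← hX] at hval
  have hwXY : R.red (w : R.O) = X - Y := by rw [hX, hY]; ring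
  have hw0 : R.red (w : R.O) ≠ 0 := red_unit_ne_zero R w
  have hXord : 0 ≤ Q.ord X := by
    rcases eq_or_ne X 0 with h | h
    · rw [h, Place.ord_zero]
    · exact (ord_nonneg_iff Q h).mpr hval
  have hYord : -1 ≤ Q.ord Y := by
    rcases eq_or_ne Y 0 with h | h
    · rw [h, Place.ord_zero]; norm_num
    · have hc : (p : k) * π κ ≠ 0 := by
        intro h0
        apply h
        rw [hY, ← map_natCast (algebraMap k Fk), ← map_mul, h0, map_zero, zero_mul]
      have : Y = algebraMap k Fk ((p : k) * π κ) * (R.red T)⁻¹ := by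
        rw [hY, map_mul, map_natCast]
      rw [this, ord_const_mul Q hc, Place.ord_inv, hTQ]
  rw [hwXY] at hw0 ⊢
  exact le_trans (le_min (by linarith) hYord) (min_le_ord_sub Q hw0)

end T2

end Fermat.Agent.S18.Disc
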