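import Fermat.Agent.S18.Core
import Fermat.Agent.S18.Disc.Local

/-!
# PROJECT H (S18), block D-local: `Core.LocalForm` holds

The hypothesis `hloc : Fermat.Agent.S18.Core.LocalForm R p` of `Fermat.Agent.S18.Core.core` is
discharged by `Fermat.Agent.S18.Disc.local_form`.
-/

set_option autoImplicit false

namespace Fermat.Agent.S18.Disc

open AlgebraicCurve Fermat.Agent.S18.CoreDefs

variable {L : Type*} [Field L] {FL : Type*} [Field FL] [Algebra L FL]
variable {k : Type*} [Field k] {Fk : Type*} [Field Fk] [Algebra k Fk]
variable {A : ValuationSubring L} {π : A →+* k} {r : Place L FL → Place k Fk}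

/-- the local form holds for every reduction datum, as soon as all places of the generic side
have degree one and `p` is prime to the residue characteristic -/
theorem localForm [HasPrincipalDivisors L FL] [HasPrincipalDivisors k Fk]
    (hdegL : ∀ P : Place L FL, P.deg = 1) (hpi : Function.Surjective π) (R : RedDatum A π r)
    (p : ℕ) (hpk : (p : k) ≠ 0) : Fermat.Agent.S18.Core.LocalForm R p :=
  fun Q T hTQ hTreg P0 P1 hP0 hP1 hT0 f hf1 hford c0 hc0 w hw =>
    local_form hdegL hpi R p hpk Q T hTQ hTreg P0 P1 hP0 hP1 hT0 f hf1 hford c0 hc0 w hw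

/-- **The abstract core of S18 with the local form discharged.** -/
theorem core_of_localForm
    [HasPrincipalDivisors L FL] [HasPrincipalDivisors k Fk]
    (hdegL : ∀ P : Place L FL, P.deg = 1)
    (A : ValuationSubring L) (π : A →+* k) (hπ : Function.Surjective π)
    (r : Place L FL → Place k Fk) (R : RedDatum A π r)
    (p : ℕ) (hpk : (p : k) ≠ 0)
    (x : R.O)
    (hunram : {Q : Place k Fk | ¬ ∃ γ : k, Q.ord (R.red x - algebraMap k Fk γ) = 1}.Finite)
    (g : ℕ) (hR : RiemannGe L FL g) (hG : RigidGeneric k Fk g)
    (D : Divisor L FL) (hD0 : Divisor.degree D = 0)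
    (hpD : p • D ∈ Divisor.principal (K := L) (F := FL))
    (hred : Finsupp.mapDomain r D ∈ Divisor.principal (K := k) (F := Fk)) :
    D ∈ Divisor.principal (K := L) (F := FL) :=
  Fermat.Agent.S18.Core.core hdegL A π hπ r R p hpk (localForm hdegL hπ R p hpk) x hunram g hR hG
    D hD0 hpD hred

end Fermat.Agent.S18.Disc
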