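import Mathlib
import Fermat.Agent.S18.CoreDefs
import Fermat.Agent.S18.CoreOrd

/-!
# PROJECT H (S18), block D-local: derived API of `CoreDefs.RedDatum`

Constants `A → O`, units of `O` versus non-vanishing of `red`, `ker π = 𝔪_A`, and the
zero-counting form of the compatibility `r_* div(u) = div(red u)`.
-/

set_option autoImplicit false

namespace Fermat.Agent.S18.Disc

open AlgebraicCurve Fermat.Agent.S18.CoreDefs

variable {L : Type*} [Field L] {FL : Type*} [Field FL] [Algebra L FL]
variable {k : Type*} [Field k] {Fk : Type*} [Field Fk] [Algebra k Fk]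

section Finsupp

theorem mapDomain_apply_eq_sum {α β : Type*} [DecidableEq β] (r : α → β) (D : α →₀ ℤ) (Q : β) :
    Finsupp.mapDomain r D Q = ∑ P ∈ D.support with r P = Q, D P := by
  rw [Finsupp.mapDomain, Finsupp.sum_apply, Finsupp.sum, Finset.sum_filter]
  refine Finset.sum_congr rfl fun P _ => ?_
  rw [Finsupp.single_apply]

end Finsupp

variable {A : ValuationSubring L} {π : A →+* k} {r : Place L FL → Place k Fk}
  (R : RedDatum A π r)

/-- the constants `A → O` -/
def constHom : A →+* R.O where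
  toFun a := ⟨algebraMap L FL (a : L), R.algebraMap_mem a⟩
  map_one' := Subtype.ext (by simp)
  map_mul' a b := Subtype.ext (by simp)
  map_zero' := Subtype.ext (by simp)
  map_add' a b := Subtype.ext (by simp)

@[simp] theorem coe_constHom (a : A) : ((constHom R a : R.O) : FL) = algebraMap L FL (a : L) := rfl

theorem red_constHom (a : A) : R.red (constHom R a) = algebraMap k Fk (π a) := R.red_algebraMap a

theorem red_ne_zero_iff_isUnit (u : R.O) : R.red u ≠ 0 ↔ IsUnit u := by
  rw [Ne, R.red_eq_zero_iff, not_not]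

theorem coe_ne_zero_of_red_ne_zero {u : R.O} (hu : R.red u ≠ 0) : (u : FL) ≠ 0 := by
  intro h
  apply hu
  have : u = 0 := Subtype.ext h
  rw [this, map_zero]

theorem isUnit_constHom_iff (a : A) : IsUnit (constHom R a) ↔ IsUnit a := by
  constructor
  · rintro ⟨⟨u, v, huv, hvu⟩, hu⟩
    have hu' : (u : FL) = algebraMap L FL (a : L) := by
      have := congrArg (fun x : R.O => (x : FL)) hu
      simpa using this
    have h1 : algebraMap L FL (a : L) * (v : FL) = 1 := by
      have := congrArg (Subtype.val) huv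
      simpa [hu'] using this
    have ha0 : (a : L) ≠ 0 := by
      rintro h0
      rw [h0, map_zero, zero_mul] at h1
      exact zero_ne_one h1
    have hv : (v : FL) = algebraMap L FL (a : L)⁻¹ := by
      rw [map_inv₀]
      exact eq_inv_of_mul_eq_one_right h1
    have hmem : (a : L)⁻¹ ∈ A := R.mem_of_algebraMap_mem _ (hv ▸ v.2)
    exact ⟨⟨a, ⟨(a : L)⁻¹, hmem⟩, Subtype.ext (mul_inv_cancel₀ ha0),
      Subtype.ext (inv_mul_cancel₀ ha0)⟩, rfl⟩
  · exact fun h => h.map (constHom R)

include R in
/-- `π` kills exactly the non-units of `A`. -/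
theorem pi_eq_zero_iff (a : A) : π a = 0 ↔ a ∈ IsLocalRing.maximalIdeal A := by
  have h1 : π a = 0 ↔ R.red (constHom R a) = 0 := by
    rw [red_constHom, map_eq_zero_iff _ (algebraMap k Fk).injective]
  rw [h1, R.red_eq_zero_iff, IsLocalRing.mem_maximalIdeal, mem_nonunits_iff,
    isUnit_constHom_iff]

/-- the compatibility for elements of `O` with non-zero reduction -/
theorem r_div (u : R.O) (hu : R.red u ≠ 0) (D : Divisor L FL)
    (hD : ∀ P, D P = P.ord (u : FL)) (Q : Place k Fk) :
    Finsupp.mapDomain r D Q = Q.ord (R.red u) := by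
  obtain ⟨u', rfl⟩ := (red_ne_zero_iff_isUnit R u).mp hu
  exact R.compat u' D hD Q

/-- an element `c ∉ A` of `L` has `c⁻¹ ∈ 𝔪_A` -/
theorem inv_mem_maximalIdeal_of_not_mem {c : L} (hcA : c ∉ A) :
    ∃ hinv : c⁻¹ ∈ A, (⟨c⁻¹, hinv⟩ : A) ∈ IsLocalRing.maximalIdeal A := by
  have hinv : c⁻¹ ∈ A := (A.mem_or_inv_mem c).resolve_left hcA
  refine ⟨hinv, ?_⟩
  rw [IsLocalRing.mem_maximalIdeal, mem_nonunits_iff]
  rintro ⟨⟨u, v, huv, hvu⟩, hu⟩
  apply hcA
  have hu' : (u : L) = c⁻¹ := by
    have := congrArg (fun x : A => (x : L)) hu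
    simpa using this
  have h1 : c⁻¹ * (v : L) = 1 := by
    have := congrArg (fun x : A => (x : L)) huv
    simpa [hu'] using this
  have hv : (v : L) = c := by
    have := eq_inv_of_mul_eq_one_right h1
    rwa [inv_inv] at this
  exact hv ▸ v.2

end Fermat.Agent.S18.Disc
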